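import Fermat.Agent.S18.Red

/-! # S18 task W4 -/

set_option autoImplicit false
set_option synthInstance.maxHeartbeats 400000

noncomputable section

namespace Fermat.Agent.S18

open Polynomial IntermediateField ModularCurve AlgebraicCurve
open Fermat.Agent.S24 (Kb FN iotaK)

variable {A : ValuationSubring Kb} {N : ℕ}

namespace Infty

theorem algebraMap_eq_C {k : Type*} [Field k] (a : k) :
    algebraMap k (LaurentSeries k) a = HahnSeries.C a := by
  rw [algebraMap_laurentSeries_eq_single]
  rfl

theorem order_jq (k : Type*) [Field k] : (jqModC k).order = -1 := by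
  have h1 : (jqModC k).coeff (-1) = 1 := coeff_jqModC_neg_one k
  have hne : jqModC k ≠ 0 := by
    intro h
    rw [h] at h1
    simp at h1
  apply le_antisymm
  · exact HahnSeries.order_le_of_coeff_ne_zero (by rw [h1]; exact one_ne_zero)
  · by_contra hlt
    rw [not_le] at hlt
    have h2 : (jqModC k).coeff (jqModC k).order ≠ 0 :=
      fun h => hne (HahnSeries.coeff_order_eq_zero.mp h)
    exact h2 (coeff_jqModC_of_lt k hlt)

theorem isVal {k : Type*} [Field k] (F : IntermediateField k (LaurentSeries k))
    (t : F) (ht : t.1.order = -1) :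
    Fermat.Agent.S24.IsVal k (fun f : F => f.1.order) where
  map_mul f g hf hg := by
    show (f.1 * g.1).order = _
    exact HahnSeries.order_mul (fun h => hf (Subtype.ext h)) (fun h => hg (Subtype.ext h))
  map_add f g _ _ hfg := by
    show _ ≤ (f.1 + g.1).order
    exact HahnSeries.min_order_le_order_add (fun h => hfg (Subtype.ext h))
  map_const a _ := by
    show 0 ≤ (algebraMap k (LaurentSeries k) a).order
    rw [algebraMap_eq_C]
    exact (HahnSeries.order_C).ge
  nontrivial := by
    refine ⟨t, ?_, ?_⟩
    · rintro rfl
      have : (0 : LaurentSeries k).order = -1 := ht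
      rw [HahnSeries.order_zero] at this
      omega
    · show t.1.order ≠ 0
      omega

/-- the place of a subfield of `k((q))` given by the `q`-order. -/
theorem exists_place_of_order {k : Type*} [Field k] (F : IntermediateField k (LaurentSeries k))
    (t : F) (ht : t.1.order = -1) :
    ∃ Q : Place k F, Q.deg = 1 ∧ ∀ f : F, f ≠ 0 → Q.ord f = f.1.order := by
  have hw := isVal F t ht
  obtain ⟨v, m, hm, hv, hsub⟩ := hw.exists_place
  have ht0 : t ≠ 0 := by
    rintro rfl
    have : (0 : LaurentSeries k).order = -1 := ht
    rw [HahnSeries.order_zero] at this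
    omega
  have hm1 : m = 1 := by
    have h1 := hv t ht0
    simp only [ht] at h1
    have h2 : m ∣ 1 := ⟨- v.ord t, by linarith⟩
    exact Int.eq_one_of_dvd_one hm.le h2
  subst hm1
  have hord : ∀ f : F, f ≠ 0 → v.ord f = f.1.order := fun f hf => by
    have := hv f hf
    simp only [one_mul] at this
    exact this.symm
  refine ⟨v, ?_, hord⟩
  have hsurj : Function.Surjective (algebraMap k v.ResidueField) := by
    intro x
    obtain ⟨a, rfl⟩ := IsLocalRing.residue_surjective x
    refine ⟨a.1.1.coeff 0, ?_⟩
    rw [IsScalarTower.algebraMap_apply k v.toValuationSubring v.ResidueField]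
    show IsLocalRing.residue _ _ = IsLocalRing.residue _ _
    rw [← sub_eq_zero, ← map_sub, IsLocalRing.residue_eq_zero_iff, IsLocalRing.mem_maximalIdeal,
      mem_nonunits_iff]
    intro hu
    set b : v.toValuationSubring := algebraMap k v.toValuationSubring (a.1.1.coeff 0) - a with hb
    have hb1 : (b : F).1 = HahnSeries.C (a.1.1.coeff 0) - a.1.1 := by
      rw [← algebraMap_eq_C]
      rfl
    have hb0 : (b : F) ≠ 0 := by
      intro h
      exact hu.ne_zero (Subtype.ext h)
    have hordb : v.ord (b : F) = 0 := by
      have := v.ord_coe_unit hu.unit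
      rwa [IsUnit.unit_spec] at this
    rw [hord _ hb0] at hordb
    have hcoeff : (b : F).1.coeff 0 = 0 := by
      rw [hb1, HahnSeries.coeff_sub, HahnSeries.C_apply, HahnSeries.coeff_single_same, sub_self]
    have hb0' : (b : F).1 ≠ 0 := fun h => hb0 (Subtype.ext h)
    have := HahnSeries.coeff_order_eq_zero.not.mpr hb0'
    rw [hordb] at this
    exact this hcoeff
  have hbij : Function.Bijective (algebraMap k v.ResidueField) :=
    ⟨(algebraMap k v.ResidueField).injective, hsurj⟩
  have e := (AlgEquiv.ofBijective (Algebra.ofId k v.ResidueField) hbij).toLinearEquiv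
  rw [Place.deg, ← e.finrank_eq, Module.finrank_self]

end Infty

/-- task W4.  the place `Q∞` of `F_k` given by the `q`-order (S24 `isVal_order`,
`IsVal.exists_place`); its residue field is `k`. -/
theorem exists_place_infty (A : ValuationSubring Kb) (N : ℕ) [NeZero N] :
    ∃ Q : Place (kA A) (Fk A N), Q.deg = 1 ∧ ∀ f : Fk A N, f ≠ 0 → Q.ord f = f.1.order :=
  Infty.exists_place_of_order (Fk A N) ⟨jqModC (kA A), jqModC_mem_full (kA A) N⟩
    (Infty.order_jq (kA A))

end Fermat.Agent.S18
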