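import Fermat.Agent.S18.W.MapDomain
import Fermat.Agent.S18.W.Infty
import Fermat.Agent.S18.RedLift

/-! # S18 task W5 -/

set_option autoImplicit false
set_option synthInstance.maxHeartbeats 400000

noncomputable section

namespace Fermat.Agent.S18

open Polynomial IntermediateField ModularCurve AlgebraicCurve
open Fermat.Agent.S24 (Kb FN iotaK)

variable {A : ValuationSubring Kb} {N : ℕ}

namespace Const

/-- an effective divisor with a positive coefficient at a place of positive degree has positive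
degree. -/
theorem degree_pos {K F : Type*} [Field K] [Field F] [Algebra K F] (E : Divisor K F)
    (h0 : ∀ Q, 0 ≤ E Q) (Q₀ : Place K F) (hQ₀ : 0 < E Q₀) (hdeg : 0 < Q₀.deg) :
    0 < Divisor.degree E := by
  classical
  have h1 : Divisor.degree E = ∑ v ∈ E.support, E v * (v.deg : ℤ) := by
    simp only [Divisor.degree, Finsupp.liftAddHom_apply, Finsupp.sum, AddMonoidHom.coe_mulRight]
  rw [h1]
  refine Finset.sum_pos' (fun v _ => mul_nonneg (h0 v) (Int.natCast_nonneg _)) ⟨Q₀, ?_, ?_⟩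
  · rw [Finsupp.mem_support_iff]
    exact hQ₀.ne'
  · exact mul_pos hQ₀ (by exact_mod_cast hdeg)

theorem ord_sub_const_nonneg {K F : Type*} [Field K] [Field F] [Algebra K F] (Q : Place K F)
    (f : F) (c : K) (h0 : Q.ord f = 0) (hne : f - algebraMap K F c ≠ 0) :
    0 ≤ Q.ord (f - algebraMap K F c) := by
  have h1 : f + -algebraMap K F c ≠ 0 := by
    rw [← sub_eq_add_neg]; exact hne
  have h2 := Fermat.Agent.S24.min_le_ord_add Q h1
  rw [Fermat.Agent.S24.ord_neg, Fermat.Agent.S24.ord_algebraMap, h0, ← sub_eq_add_neg] at h2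
  simpa using h2

end Const

/-- task W5.  A function on the reduction without zeros and poles is constant.
`f = c₀ + O(q)` (`Q∞`), `f = ā₁/b̄₁` (`exists_good_lift`), `y = a₁ - a b₁` with `a` a lift of `c₀`.  If
`ȳ ≠ 0`: `div (f - c₀) = r_* div (y/b₁)` has degree `0` (S24 `degree_eq_zero_of_principal`, Prelude
`degree_mapDomain_of_deg_eq`), but all orders of `f - c₀` are `≥ 0` and the order at `Q∞` is `> 0`. -/
theorem const_of_ord_eq_zero [NeZero N]
    {r : Place Kb (FN N) → Place (kA A) (Fk A N)} (hr : IsPlaceReductionModL A N r)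
    (f : Fk A N) (hf : f ≠ 0) (h0 : ∀ Q : Place (kA A) (Fk A N), Q.ord f = 0) :
    ∃ c : kA A, c ≠ 0 ∧ f = algebraMap (kA A) (Fk A N) c := by
  classical
  obtain ⟨Qi, hQdeg, hQord⟩ := exists_place_infty A N
  have hf1 : f.1 ≠ 0 := fun h => hf (Subtype.ext h)
  have hord0 : f.1.order = 0 := by rw [← hQord f hf, h0]
  set c₀ : kA A := f.1.coeff 0 with hc₀
  have hc₀ne : c₀ ≠ 0 := by
    have := HahnSeries.coeff_order_eq_zero.not.mpr hf1
    rwa [hord0] at this
  refine ⟨c₀, hc₀ne, ?_⟩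
  by_contra hne
  set g : Fk A N := f - algebraMap (kA A) (Fk A N) c₀ with hg
  have hg0 : g ≠ 0 := sub_ne_zero.mpr hne
  have hg1 : g.1 = f.1 - HahnSeries.C c₀ := by
    rw [← Infty.algebraMap_eq_C]
    rfl
  have hg10 : g.1 ≠ 0 := fun h => hg0 (Subtype.ext h)
  -- orders of `g`
  have hgnonneg : ∀ Q : Place (kA A) (Fk A N), 0 ≤ Q.ord g := by
    intro Q
    exact Const.ord_sub_const_nonneg Q f c₀ (h0 Q) hg0
  have hgpos : 0 < Qi.ord g := by
    have h1 := hgnonneg Qi
    rcases h1.lt_or_eq with h | h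
    · exact h
    exfalso
    rw [hQord g hg0] at h
    have h2 := HahnSeries.coeff_order_eq_zero.not.mpr hg10
    rw [← h] at h2
    apply h2
    rw [hg1, HahnSeries.coeff_sub, HahnSeries.C_apply, HahnSeries.coeff_single_same, sub_self]
  -- lifts
  obtain ⟨a₁, b₁, ha₁, hb₁, hab⟩ := exists_good_lift (A := A) (N := N) f hf
  obtain ⟨a, ha⟩ := IsLocalRing.residue_surjective c₀
  set y : LaurentSeries A := a₁ - HahnSeries.C a * b₁ with hy
  have hyI : Int2 A N y := ha₁.toInt2.sub ((Int2.const a).mul hb₁.toInt2)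
  have hCa : redA A (HahnSeries.C a) = HahnSeries.C c₀ := by
    rw [← ha]
    exact coeffMap_single _ _ _
  have hyred : redA A y = g.1 * redA A b₁ := by
    rw [hy, map_sub, map_mul, hCa, ← hab, hg1]
    ring
  have hyG : Good A N y := ⟨hyI, by rw [hyred]; exact mul_ne_zero hg10 hb₁.ne⟩
  obtain ⟨Dy, hDy⟩ := exists_div (N := N) hyG.toInt2.toF hyG.toF_ne_zero
  obtain ⟨Db, hDb⟩ := exists_div (N := N) hb₁.toInt2.toF hb₁.toF_ne_zero
  have hD : ∀ P, (Dy - Db) P = P.ord hyG.toInt2.toF - P.ord hb₁.toInt2.toF := by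
    intro P
    rw [Finsupp.sub_apply, hDy, hDb]
  have hmap := mapDomain_good hr hyG hb₁ (Dy - Db) hD
  have htok : hyG.toInt2.tok = g * hb₁.toInt2.tok := Subtype.ext hyred
  have hbtok : hb₁.toInt2.tok ≠ 0 := fun h => hb₁.ne (congrArg Subtype.val h)
  have hmap' : ∀ Q, Finsupp.mapDomain r (Dy - Db) Q = Q.ord g := by
    intro Q
    rw [hmap, htok, Q.ord_mul hg0 hbtok]
    ring
  have hdeg0 : Divisor.degree (Dy - Db) = 0 := by
    rw [map_sub,
      Fermat.Agent.S24.degree_eq_zero_of_principal (Fermat.Agent.S24.isFF1_FN N)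
        hyG.toF_ne_zero Dy hDy,
      Fermat.Agent.S24.degree_eq_zero_of_principal (Fermat.Agent.S24.isFF1_FN N)
        hb₁.toF_ne_zero Db hDb, sub_zero]
  have hdeg1 : Divisor.degree (Finsupp.mapDomain r (Dy - Db)) = 0 := by
    rw [degree_mapDomain_of_deg_eq hr.1, hdeg0]
  have hpos := Const.degree_pos (Finsupp.mapDomain r (Dy - Db))
    (fun Q => by rw [hmap']; exact hgnonneg Q) Qi (by rw [hmap']; exact hgpos)
    (by rw [hQdeg]; exact one_pos)
  omega

end Fermat.Agent.S18
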