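import Fermat.Agent.S18.Red

/-! # S18 task W2 -/

set_option autoImplicit false
set_option synthInstance.maxHeartbeats 400000

noncomputable section

namespace Fermat.Agent.S18

open Polynomial IntermediateField ModularCurve AlgebraicCurve
open Fermat.Agent.S24 (Kb FN iotaK)

variable {A : ValuationSubring Kb} {N : ℕ}

theorem closure_toF_mul {y z : LaurentSeries A} (hy : Int2 A N y) (hz : Int2 A N z) :
    (hy.mul hz).toF = hy.toF * hz.toF := Subtype.ext (map_mul (incA A) y z)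

theorem closure_toF_one : (Int2.one (A := A) (N := N)).toF = 1 := Subtype.ext (map_one (incA A))

/-- task W2.  closure induction + `Good.mul`. -/
theorem exists_good_of_principal
    (hgen : PrincipalGeneratedByIntegral A (IsLocalRing.residue A) N)
    (D : Divisor Kb (FN N)) (hD : D ∈ Divisor.principal (K := Kb) (F := FN N)) :
    ∃ (y₁ y₂ : LaurentSeries A) (h₁ : Good A N y₁) (h₂ : Good A N y₂),
      ∀ P, D P = P.ord h₁.toInt2.toF - P.ord h₂.toInt2.toF := by
  have hD' := hgen hD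
  clear hD
  induction hD' using AddSubgroup.closure_induction with
  | mem E hE =>
    obtain ⟨y, hy, hyk, hne, hDy⟩ := hE
    refine ⟨y, 1, ⟨⟨hy, hyk⟩, hne⟩, Good.one, fun P => ?_⟩
    rw [hDy P, closure_toF_one, Place.ord_one, sub_zero]
    rfl
  | zero =>
    exact ⟨1, 1, Good.one, Good.one, fun P => by rw [sub_self]; rfl⟩
  | add E E' _ _ hE hE' =>
    obtain ⟨y₁, y₂, h₁, h₂, h⟩ := hE
    obtain ⟨z₁, z₂, k₁, k₂, k⟩ := hE'
    refine ⟨y₁ * z₁, y₂ * z₂, h₁.mul k₁, h₂.mul k₂, fun P => ?_⟩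
    have e1 : (h₁.mul k₁).toInt2.toF = h₁.toInt2.toF * k₁.toInt2.toF :=
      closure_toF_mul h₁.toInt2 k₁.toInt2
    have e2 : (h₂.mul k₂).toInt2.toF = h₂.toInt2.toF * k₂.toInt2.toF :=
      closure_toF_mul h₂.toInt2 k₂.toInt2
    rw [Finsupp.add_apply, h P, k P, e1, e2, P.ord_mul h₁.toF_ne_zero k₁.toF_ne_zero,
      P.ord_mul h₂.toF_ne_zero k₂.toF_ne_zero]
    ring
  | neg E _ hE =>
    obtain ⟨y₁, y₂, h₁, h₂, h⟩ := hE
    refine ⟨y₂, y₁, h₂, h₁, fun P => ?_⟩
    rw [Finsupp.neg_apply, h P]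
    ring

end Fermat.Agent.S18
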