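import Fermat.Agent.S18.Red
import Fermat.Agent.S24.Principal

/-! # S18 task W1 -/

set_option autoImplicit false
set_option synthInstance.maxHeartbeats 400000

noncomputable section

namespace Fermat.Agent.S18

open Polynomial IntermediateField ModularCurve AlgebraicCurve
open Fermat.Agent.S24 (Kb FN iotaK)

variable {A : ValuationSubring Kb} {N : ℕ}

/-- task W1.  divisor of a function on `X₀(N)` over `ℚ̄` (S24 `finite_ord_pos`, `isFF1_FN`). -/
theorem exists_div [NeZero N] (f : FN N) (hf : f ≠ 0) :
    ∃ D : Divisor Kb (FN N), ∀ v, D v = v.ord f := by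
  classical
  have h := Fermat.Agent.S24.isFF1_FN N
  by_cases hr : f ∈ Set.range (algebraMap Kb (FN N))
  · obtain ⟨a, rfl⟩ := hr
    exact ⟨0, fun v => by rw [Fermat.Agent.S24.ord_algebraMap]; rfl⟩
  have ht : Transcendental Kb f := Fermat.Agent.S24.transcendental_of_not_mem_range hr
  have ht' : Transcendental Kb f⁻¹ := by
    apply Fermat.Agent.S24.transcendental_of_not_mem_range
    rintro ⟨a, ha⟩
    apply hr
    exact ⟨a⁻¹, by rw [map_inv₀, ha, inv_inv]⟩
  have hfin : {v : Place Kb (FN N) | v.ord f ≠ 0}.Finite := by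
    refine ((Fermat.Agent.S24.finite_ord_pos h ht).union
      (Fermat.Agent.S24.finite_ord_pos h ht')).subset ?_
    intro v hv
    simp only [Set.mem_setOf_eq, Set.mem_union, Place.ord_inv] at hv ⊢
    omega
  exact ⟨Finsupp.onFinset hfin.toFinset (fun v => v.ord f) (fun v hv => by simpa using hv),
    fun v => rfl⟩

end Fermat.Agent.S18
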