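import Fermat.Agent.S18.W.Div

/-! # S18 task W3 -/

set_option autoImplicit false
set_option synthInstance.maxHeartbeats 400000

noncomputable section

namespace Fermat.Agent.S18

open Polynomial IntermediateField ModularCurve AlgebraicCurve
open Fermat.Agent.S24 (Kb FN iotaK)

variable {A : ValuationSubring Kb} {N : ℕ}

/-- task W3.  the reduction formula for a quotient of good elements. -/
theorem mapDomain_good [NeZero N]
    {r : Place Kb (FN N) → Place (kA A) (Fk A N)} (hr : IsPlaceReductionModL A N r)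
    {y₁ y₂ : LaurentSeries A} (h₁ : Good A N y₁) (h₂ : Good A N y₂)
    (D : Divisor Kb (FN N)) (hD : ∀ P, D P = P.ord h₁.toInt2.toF - P.ord h₂.toInt2.toF) :
    ∀ Q, Finsupp.mapDomain r D Q = Q.ord h₁.toInt2.tok - Q.ord h₂.toInt2.tok := by
  intro Q
  obtain ⟨D₁, hD₁⟩ := exists_div h₁.toInt2.toF h₁.toF_ne_zero
  obtain ⟨D₂, hD₂⟩ := exists_div h₂.toInt2.toF h₂.toF_ne_zero
  have hDD : D = D₁ - D₂ := by
    ext P
    rw [Finsupp.sub_apply, hD P, hD₁ P, hD₂ P]
  have e1 := hr.2 y₁ h₁.memF h₁.memk h₁.ne D₁ hD₁ Q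
  have e2 := hr.2 y₂ h₂.memF h₂.memk h₂.ne D₂ hD₂ Q
  rw [hDD, Finsupp.mapDomain_sub, Finsupp.sub_apply, e1, e2]
  rfl

end Fermat.Agent.S18
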